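import Fermat.Agent.LT.Defs

/-!
# An explicit lift of `GL₂(𝔽₃)` to `GL₂(ℤ[√-2])`

The group generated by the two matrices of the frozen lift module, tabulated by reduction.
-/

set_option autoImplicit false

noncomputable section

namespace FLTAgent.LT

open Matrix FLT.ExplicitLift

/-- The table, indexed by the entries read in base three. -/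
def explicitLiftTable : List (ℤ√(-2) × ℤ√(-2) × ℤ√(-2) × ℤ√(-2)) :=
  [(⟨0, 0⟩, ⟨0, 0⟩, ⟨0, 0⟩, ⟨0, 0⟩),
    (⟨0, 0⟩, ⟨0, 0⟩, ⟨0, 0⟩, ⟨0, 0⟩),
    (⟨0, 0⟩, ⟨0, 0⟩, ⟨0, 0⟩, ⟨0, 0⟩),
    (⟨0, 0⟩, ⟨0, 0⟩, ⟨0, 0⟩, ⟨0, 0⟩),
    (⟨0, 0⟩, ⟨0, 0⟩, ⟨0, 0⟩, ⟨0, 0⟩),
    (⟨0, 0⟩, ⟨0, 0⟩, ⟨0, 0⟩, ⟨0, 0⟩),
    (⟨0, 0⟩, ⟨0, 0⟩, ⟨0, 0⟩, ⟨0, 0⟩),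
    (⟨0, 0⟩, ⟨0, 0⟩, ⟨0, 0⟩, ⟨0, 0⟩),
    (⟨0, 0⟩, ⟨0, 0⟩, ⟨0, 0⟩, ⟨0, 0⟩),
    (⟨0, 0⟩, ⟨0, 0⟩, ⟨0, 0⟩, ⟨0, 0⟩),
    (⟨0, 0⟩, ⟨0, 0⟩, ⟨0, 0⟩, ⟨0, 0⟩),
    (⟨0, 0⟩, ⟨0, 0⟩, ⟨0, 0⟩, ⟨0, 0⟩),
    (⟨-1, -1⟩, ⟨-1, 1⟩, ⟨-2, 0⟩, ⟨1, 1⟩),
    (⟨0, 0⟩, ⟨1, 0⟩, ⟨1, 0⟩, ⟨0, -1⟩),
    (⟨1, 1⟩, ⟨0, -1⟩, ⟨1, 0⟩, ⟨-1, 0⟩),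
    (⟨1, 1⟩, ⟨0, -1⟩, ⟨2, 0⟩, ⟨-1, -1⟩),
    (⟨0, 0⟩, ⟨1, 0⟩, ⟨-1, 0⟩, ⟨1, 0⟩),
    (⟨-1, -1⟩, ⟨-1, 1⟩, ⟨-1, 0⟩, ⟨0, 1⟩),
    (⟨0, 0⟩, ⟨0, 0⟩, ⟨0, 0⟩, ⟨0, 0⟩),
    (⟨0, 0⟩, ⟨0, 0⟩, ⟨0, 0⟩, ⟨0, 0⟩),
    (⟨0, 0⟩, ⟨0, 0⟩, ⟨0, 0⟩, ⟨0, 0⟩),
    (⟨-1, -1⟩, ⟨0, 1⟩, ⟨-2, 0⟩, ⟨1, 1⟩),
    (⟨1, 1⟩, ⟨1, -1⟩, ⟨1, 0⟩, ⟨0, -1⟩),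
    (⟨0, 0⟩, ⟨-1, 0⟩, ⟨1, 0⟩, ⟨-1, 0⟩),
    (⟨1, 1⟩, ⟨1, -1⟩, ⟨2, 0⟩, ⟨-1, -1⟩),
    (⟨-1, -1⟩, ⟨0, 1⟩, ⟨-1, 0⟩, ⟨1, 0⟩),
    (⟨0, 0⟩, ⟨-1, 0⟩, ⟨-1, 0⟩, ⟨0, 1⟩),
    (⟨0, 0⟩, ⟨0, 0⟩, ⟨0, 0⟩, ⟨0, 0⟩),
    (⟨1, 0⟩, ⟨0, 0⟩, ⟨0, 0⟩, ⟨1, 0⟩),
    (⟨1, 0⟩, ⟨-1, -1⟩, ⟨0, 0⟩, ⟨-1, 0⟩),
    (⟨0, 0⟩, ⟨0, 0⟩, ⟨0, 0⟩, ⟨0, 0⟩),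
    (⟨-2, 0⟩, ⟨1, 1⟩, ⟨-1, 1⟩, ⟨1, 0⟩),
    (⟨-2, 0⟩, ⟨1, 1⟩, ⟨-1, 1⟩, ⟨2, 0⟩),
    (⟨0, 0⟩, ⟨0, 0⟩, ⟨0, 0⟩, ⟨0, 0⟩),
    (⟨1, 0⟩, ⟨-1, -1⟩, ⟨1, -1⟩, ⟨-2, 0⟩),
    (⟨1, 0⟩, ⟨0, 0⟩, ⟨1, -1⟩, ⟨-1, 0⟩),
    (⟨0, 0⟩, ⟨0, 0⟩, ⟨0, 0⟩, ⟨0, 0⟩),
    (⟨-1, 1⟩, ⟨1, 0⟩, ⟨1, 1⟩, ⟨0, -1⟩),
    (⟨0, -1⟩, ⟨-1, 1⟩, ⟨-1, -1⟩, ⟨0, 1⟩),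
    (⟨1, 0⟩, ⟨0, -1⟩, ⟨1, 0⟩, ⟨-1, -1⟩),
    (⟨0, 0⟩, ⟨0, 0⟩, ⟨0, 0⟩, ⟨0, 0⟩),
    (⟨1, 0⟩, ⟨0, -1⟩, ⟨0, -1⟩, ⟨-1, 0⟩),
    (⟨0, -1⟩, ⟨-1, 1⟩, ⟨-1, 0⟩, ⟨1, 1⟩),
    (⟨-1, 1⟩, ⟨1, 0⟩, ⟨0, 1⟩, ⟨1, 0⟩),
    (⟨0, 0⟩, ⟨0, 0⟩, ⟨0, 0⟩, ⟨0, 0⟩),
    (⟨0, 0⟩, ⟨0, 0⟩, ⟨0, 0⟩, ⟨0, 0⟩),
    (⟨0, -1⟩, ⟨-1, 0⟩, ⟨-1, -1⟩, ⟨-1, 1⟩),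
    (⟨-1, 1⟩, ⟨2, 0⟩, ⟨1, 1⟩, ⟨1, -1⟩),
    (⟨1, 0⟩, ⟨-1, 0⟩, ⟨1, 0⟩, ⟨0, 0⟩),
    (⟨1, 0⟩, ⟨-1, 0⟩, ⟨0, -1⟩, ⟨-1, 1⟩),
    (⟨0, 0⟩, ⟨0, 0⟩, ⟨0, 0⟩, ⟨0, 0⟩),
    (⟨0, -1⟩, ⟨-1, 0⟩, ⟨-1, 0⟩, ⟨0, 0⟩),
    (⟨0, 0⟩, ⟨0, 0⟩, ⟨0, 0⟩, ⟨0, 0⟩),
    (⟨-1, 1⟩, ⟨2, 0⟩, ⟨0, 1⟩, ⟨1, -1⟩),
    (⟨0, 0⟩, ⟨0, 0⟩, ⟨0, 0⟩, ⟨0, 0⟩),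
    (⟨-1, 0⟩, ⟨1, 1⟩, ⟨0, 0⟩, ⟨1, 0⟩),
    (⟨-1, 0⟩, ⟨0, 0⟩, ⟨0, 0⟩, ⟨-1, 0⟩),
    (⟨0, 0⟩, ⟨0, 0⟩, ⟨0, 0⟩, ⟨0, 0⟩),
    (⟨-1, 0⟩, ⟨0, 0⟩, ⟨-1, 1⟩, ⟨1, 0⟩),
    (⟨-1, 0⟩, ⟨1, 1⟩, ⟨-1, 1⟩, ⟨2, 0⟩),
    (⟨0, 0⟩, ⟨0, 0⟩, ⟨0, 0⟩, ⟨0, 0⟩),
    (⟨2, 0⟩, ⟨-1, -1⟩, ⟨1, -1⟩, ⟨-2, 0⟩),
    (⟨2, 0⟩, ⟨-1, -1⟩, ⟨1, -1⟩, ⟨-1, 0⟩),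
    (⟨0, 0⟩, ⟨0, 0⟩, ⟨0, 0⟩, ⟨0, 0⟩),
    (⟨1, -1⟩, ⟨-2, 0⟩, ⟨-1, -1⟩, ⟨-1, 1⟩),
    (⟨0, 1⟩, ⟨1, 0⟩, ⟨1, 1⟩, ⟨1, -1⟩),
    (⟨0, 1⟩, ⟨1, 0⟩, ⟨1, 0⟩, ⟨0, 0⟩),
    (⟨1, -1⟩, ⟨-2, 0⟩, ⟨0, -1⟩, ⟨-1, 1⟩),
    (⟨0, 0⟩, ⟨0, 0⟩, ⟨0, 0⟩, ⟨0, 0⟩),
    (⟨-1, 0⟩, ⟨1, 0⟩, ⟨-1, 0⟩, ⟨0, 0⟩),
    (⟨0, 0⟩, ⟨0, 0⟩, ⟨0, 0⟩, ⟨0, 0⟩),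
    (⟨-1, 0⟩, ⟨1, 0⟩, ⟨0, 1⟩, ⟨1, -1⟩),
    (⟨0, 0⟩, ⟨0, 0⟩, ⟨0, 0⟩, ⟨0, 0⟩),
    (⟨0, 1⟩, ⟨1, -1⟩, ⟨1, 1⟩, ⟨0, -1⟩),
    (⟨1, -1⟩, ⟨-1, 0⟩, ⟨-1, -1⟩, ⟨0, 1⟩),
    (⟨0, 1⟩, ⟨1, -1⟩, ⟨1, 0⟩, ⟨-1, -1⟩),
    (⟨0, 0⟩, ⟨0, 0⟩, ⟨0, 0⟩, ⟨0, 0⟩),
    (⟨1, -1⟩, ⟨-1, 0⟩, ⟨0, -1⟩, ⟨-1, 0⟩),
    (⟨-1, 0⟩, ⟨0, 1⟩, ⟨-1, 0⟩, ⟨1, 1⟩),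
    (⟨-1, 0⟩, ⟨0, 1⟩, ⟨0, 1⟩, ⟨1, 0⟩),
    (⟨0, 0⟩, ⟨0, 0⟩, ⟨0, 0⟩, ⟨0, 0⟩)]

/-- The lift of a matrix, zero outside the general linear group. -/
def explicitLiftMat (a b c d : ZMod 3) : Matrix (Fin 2) (Fin 2) (ℤ√(-2)) :=
  match explicitLiftTable[a.val * 27 + b.val * 9 + c.val * 3 + d.val]? with
  | some (x, y, z, w) => !![x, y; z, w]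
  | none => 0

theorem red_apply_sub (z : ℤ√(-2)) : red z = ((z.re - z.im : ℤ) : ZMod 3) := by
  show (z.re : ZMod 3) + (z.im : ZMod 3) * (-1) = _
  push_cast
  ring

theorem explicitLiftMat_red : ∀ a b c d : ZMod 3, a * d - b * c ≠ 0 →
    (explicitLiftMat a b c d).map (fun z => ((z.re - z.im : ℤ) : ZMod 3)) = !![a, b; c, d] := by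
  decide +kernel

theorem explicitLiftMat_one : explicitLiftMat 1 0 0 1 = 1 := by decide +kernel

theorem explicitLiftMat_mul : ∀ a b c d : ZMod 3, a * d - b * c ≠ 0 → ∀ a' b' c' d' : ZMod 3,
    a' * d' - b' * c' ≠ 0 → explicitLiftMat a b c d * explicitLiftMat a' b' c' d' =
      explicitLiftMat (a * a' + b * c') (a * b' + b * d') (c * a' + d * c') (c * b' + d * d') := by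
  decide +kernel

/-- The lift as a function on the group. -/
def explicitLiftVal (g : GL (Fin 2) (ZMod 3)) : Matrix (Fin 2) (Fin 2) (ℤ√(-2)) :=
  explicitLiftMat (g 0 0) (g 0 1) (g 1 0) (g 1 1)

theorem g3_entries_ne (g : GL (Fin 2) (ZMod 3)) : g 0 0 * g 1 1 - g 0 1 * g 1 0 ≠ 0 := by
  rw [← Matrix.det_fin_two]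
  exact (Matrix.GeneralLinearGroup.det g).ne_zero

/-- The multiplicative section. -/
def explicitLiftMonoidHom : GL (Fin 2) (ZMod 3) →* Matrix (Fin 2) (Fin 2) (ℤ√(-2)) where
  toFun := explicitLiftVal
  map_one' := by simp [explicitLiftVal, explicitLiftMat_one]
  map_mul' g k := by
    rw [explicitLiftVal, explicitLiftVal, explicitLiftVal, explicitLiftMat_mul _ _ _ _ (g3_entries_ne g) _ _ _ _ (g3_entries_ne k)]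
    simp only [Units.val_mul, Matrix.mul_apply, Fin.sum_univ_two]

/-- The lift. -/
def explicitLift : GL (Fin 2) (ZMod 3) →* GL (Fin 2) (ℤ√(-2)) := explicitLiftMonoidHom.toHomUnits

theorem explicitLift_red (g : GL (Fin 2) (ZMod 3)) :
    Matrix.GeneralLinearGroup.map red (explicitLift g) = g := by
  refine Units.ext ?_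
  show (explicitLiftVal g).map red = (g : Matrix (Fin 2) (Fin 2) (ZMod 3))
  rw [show (red : ℤ√(-2) → ZMod 3) = fun z => ((z.re - z.im : ℤ) : ZMod 3) from
    funext red_apply_sub, explicitLiftVal, explicitLiftMat_red _ _ _ _ (g3_entries_ne g), ← Matrix.eta_fin_two]

end FLTAgent.LT
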