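import Fermat.Agent.LT.Adjoint.OctaGroup
import Mathlib.GroupTheory.Sylow
import Mathlib.LinearAlgebra.Matrix.GeneralLinearGroup.Card

/-!
# Facts about the subgroups of `GL₂(𝔽₃)`
-/

set_option autoImplicit false
set_option linter.style.haveILetI false

noncomputable section

namespace FLTAgent.LT

open Matrix

/-- An element of order eight. -/
def g3Eight : G3 := ⟨!![1, 1; 1, 0], !![0, 1; 1, -1], by decide, by decide⟩

theorem orderOf_g3Eight : orderOf g3Eight = 8 := by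
  have h := orderOf_eq_prime_pow (G := G3) (p := 2) (n := 2) (x := g3Eight) (by decide) (by decide)
  simpa using h

/-- A subgroup without elements of order three has an abelian part of index at most two. -/
theorem exists_abelian_part (H : Subgroup G3) (h3 : ¬ 3 ∣ Nat.card H) :
    ∃ C : Subgroup G3, (∀ x ∈ C, ∀ y ∈ C, x * y = y * x) ∧
      ∀ x ∈ H, ∀ y ∈ H, x ∉ C → (x * y ∈ C ↔ y ∉ C) := by
  haveI : Fact (Nat.Prime 2) := ⟨Nat.prime_two⟩
  haveI : Fact (Nat.Prime 3) := ⟨Nat.prime_three⟩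
  have hcard : Nat.card G3 = 2 ^ 4 * 3 := by
    rw [Matrix.card_GL_field]; simp [Fin.prod_univ_two]
  have hH : IsPGroup 2 H := by
    have hdvd : Nat.card H ∣ 2 ^ 4 * 3 := hcard ▸ H.card_subgroup_dvd_card
    obtain ⟨k, -, hk⟩ := (Nat.dvd_prime_pow Nat.prime_two).1
      ((Nat.Coprime.dvd_of_dvd_mul_right ((Nat.prime_three.coprime_iff_not_dvd.2 h3).symm)) hdvd)
    exact IsPGroup.of_card hk
  have hC : IsPGroup 2 (Subgroup.zpowers g3Eight) :=
    IsPGroup.of_card (n := 3) (by rw [Nat.card_zpowers, orderOf_g3Eight]; rfl)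
  obtain ⟨Q, hQ⟩ := hH.exists_le_sylow
  obtain ⟨P, hP⟩ := hC.exists_le_sylow
  obtain ⟨c, rfl⟩ := MulAction.exists_smul_eq G3 P Q
  set f := (MulAut.conj c).toMonoidHom
  set C := (Subgroup.zpowers g3Eight).map f
  have hPQ : ((c • P : Sylow 2 G3) : Subgroup G3) = (P : Subgroup G3).map f := by
    rw [Sylow.coe_subgroup_smul]; rfl
  refine ⟨C, ?_, ?_⟩
  · rintro _ ⟨a, ⟨m, rfl⟩, rfl⟩ _ ⟨b, ⟨n, rfl⟩, rfl⟩
    show f (g3Eight ^ m) * f (g3Eight ^ n) = f (g3Eight ^ n) * f (g3Eight ^ m)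
    rw [← map_mul, ← map_mul, zpow_mul_comm]
  · have hfi : Function.Injective f := (MulAut.conj c).injective
    have hCQ : C ≤ ((c • P : Sylow 2 G3) : Subgroup G3) := hPQ ▸ Subgroup.map_mono hP
    have hidx : (C.subgroupOf ((c • P : Sylow 2 G3) : Subgroup G3)).index = 2 := by
      have hcC : Nat.card C = 8 := by
        rw [Subgroup.card_map_of_injective hfi, Nat.card_zpowers, orderOf_g3Eight]
      have hcQ : Nat.card ((c • P : Sylow 2 G3) : Subgroup G3) = 16 := by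
        rw [Sylow.card_eq_multiplicity, hcard, Nat.factorization_mul (by norm_num) (by norm_num),
          Finsupp.add_apply, Nat.Prime.factorization_pow Nat.prime_two,
          Nat.Prime.factorization Nat.prime_three]
        simp
      have h := Subgroup.card_mul_index (C.subgroupOf ((c • P : Sylow 2 G3) : Subgroup G3))
      rw [Nat.card_congr (Subgroup.subgroupOfEquivOfLe hCQ).toEquiv, hcC, hcQ] at h
      omega
    intro x hx y hy hxC
    have h := Subgroup.mul_mem_iff_of_index_two hidx (a := ⟨x, hQ hx⟩) (b := ⟨y, hQ hy⟩)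
    simp only [Subgroup.mem_subgroupOf, Subgroup.coe_mul] at h
    rw [h]
    exact ⟨fun h' hyC => hxC (h'.2 hyC), fun hyC => ⟨fun hxC' => absurd hxC' hxC,
      fun hyC' => absurd hyC' hyC⟩⟩

theorem sl_product : ∀ a b c d : ZMod 3, a * d - b * c = 1 → ∃ i j k l : ZMod 3,
    !![a, b; c, d] = !![1, i; 0, 1] * !![1, 0; j, 1] * !![1, k; 0, 1] * !![1, 0; l, 1] := by
  decide

theorem mul_eq_one_three : ∀ x i : ZMod 3, x ≠ 0 → ∃ m : Fin 3, i = (m : ℕ) * x := by decide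

/-- A subgroup with nonconstant determinant containing both triangular unipotents is everything. -/
theorem eq_top_of_unipotents (H : Subgroup G3)
    (hdet : ∃ g ∈ H, (Matrix.GeneralLinearGroup.det g : ZMod 3) = -1)
    {u l : G3} (hu : u ∈ H) (hl : l ∈ H) {x y : ZMod 3} (hx : x ≠ 0) (hy : y ≠ 0)
    (hu' : (u : Matrix (Fin 2) (Fin 2) (ZMod 3)) = !![1, x; 0, 1])
    (hl' : (l : Matrix (Fin 2) (Fin 2) (ZMod 3)) = !![1, 0; y, 1]) : H = ⊤ := by
  have upow : ∀ m : ℕ, ((u ^ m : G3) : Matrix (Fin 2) (Fin 2) (ZMod 3)) = !![1, m * x; 0, 1] := by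
    intro m
    induction m with
    | zero => simp [Matrix.one_fin_two]
    | succ m ih =>
      rw [pow_succ, Units.val_mul, ih, hu', Matrix.mul_fin_two]
      push_cast
      congr! 1
      ring_nf
  have lpow : ∀ m : ℕ, ((l ^ m : G3) : Matrix (Fin 2) (Fin 2) (ZMod 3)) = !![1, 0; m * y, 1] := by
    intro m
    induction m with
    | zero => simp [Matrix.one_fin_two]
    | succ m ih =>
      rw [pow_succ, Units.val_mul, ih, hl', Matrix.mul_fin_two]
      push_cast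
      congr! 1
      ring_nf
  have hsl : ∀ g : G3, Matrix.GeneralLinearGroup.det g = 1 → g ∈ H := by
    intro g hg
    obtain ⟨i, j, k, n, h⟩ := sl_product _ _ _ _ (det_eq_entries g hg)
    rw [← Matrix.eta_fin_two] at h
    obtain ⟨a, rfl⟩ := mul_eq_one_three x i hx
    obtain ⟨b, rfl⟩ := mul_eq_one_three y j hy
    obtain ⟨c, rfl⟩ := mul_eq_one_three x k hx
    obtain ⟨d, rfl⟩ := mul_eq_one_three y n hy
    have : g = u ^ (a : ℕ) * l ^ (b : ℕ) * u ^ (c : ℕ) * l ^ (d : ℕ) := Units.ext (by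
      rw [Units.val_mul, Units.val_mul, Units.val_mul, upow, upow, lpow, lpow]; exact h)
    rw [this]
    exact mul_mem (mul_mem (mul_mem (pow_mem hu _) (pow_mem hl _)) (pow_mem hu _)) (pow_mem hl _)
  obtain ⟨t, htH, ht⟩ := hdet
  refine (Subgroup.eq_top_iff' H).2 fun g => ?_
  have hcases : ∀ z : (ZMod 3)ˣ, z = 1 ∨ z = -1 := by decide
  rcases hcases (Matrix.GeneralLinearGroup.det g) with h | h
  · exact hsl g h
  · have : g * t⁻¹ ∈ H := hsl _ (by
      rw [map_mul, map_inv, h, show Matrix.GeneralLinearGroup.det t = -1 from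
        Units.ext (by simpa using ht), mul_inv_cancel])
    simpa using mul_mem this htH

theorem comm_quat_raw : ∀ a b c d : ZMod 3, a * d - b * c = 1 →
    !![a, b; c, d] = 1 ∨ !![a, b; c, d] = -1 ∨
    ∃ a' b' c' d' : ZMod 3, a' * d' - b' * c' = 1 ∧ ∃ k : Fin 4, k ≠ 0 ∧
      (!![a, b; c, d] * !![a', b'; c', d'] * !![d, -b; -c, a] * !![d', -b'; -c', a'] =
          (q8 k : Matrix (Fin 2) (Fin 2) (ZMod 3)) ∨
        !![a, b; c, d] * !![a', b'; c', d'] * !![d, -b; -c, a] * !![d', -b'; -c', a'] =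
          -(q8 k : Matrix (Fin 2) (Fin 2) (ZMod 3))) := by
  decide +kernel

theorem inv_val_of_det (g : G3) (h : Matrix.GeneralLinearGroup.det g = 1) :
    ((g⁻¹ : G3) : Matrix (Fin 2) (Fin 2) (ZMod 3)) = !![g 1 1, -g 0 1; -g 1 0, g 0 0] := by
  rw [Matrix.coe_units_inv, Matrix.inv_def, show (g : Matrix (Fin 2) (Fin 2) (ZMod 3)).det = 1 from
    congrArg Units.val h, Ring.inverse_one, one_smul, Matrix.adjugate_fin_two]

theorem exists_commutator_quat (n : G3) (hn : Matrix.GeneralLinearGroup.det n = 1) :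
    UpSign n 1 ∨ ∃ g, Matrix.GeneralLinearGroup.det g = 1 ∧
      ∃ k, k ≠ 0 ∧ UpSign (n * g * n⁻¹ * g⁻¹) (q8 k) := by
  rcases comm_quat_raw _ _ _ _ (det_eq_entries n hn) with h | h | ⟨a, b, c, d, h1, k, hk, h⟩
  · rw [← Matrix.eta_fin_two] at h
    exact Or.inl (Or.inl (Units.ext h))
  · rw [← Matrix.eta_fin_two] at h
    exact Or.inl (Or.inr (Units.ext (by rw [h]; rfl)))
  · have hdet : (!![a, b; c, d] : Matrix (Fin 2) (Fin 2) (ZMod 3)).det = 1 := by
      rw [Matrix.det_fin_two_of]; exact h1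
    set g := Matrix.GeneralLinearGroup.mkOfDetNeZero !![a, b; c, d] (by rw [hdet]; exact one_ne_zero)
    have hg : Matrix.GeneralLinearGroup.det g = 1 := Units.ext hdet
    refine Or.inr ⟨g, hg, k, hk, ?_⟩
    have e : ((n * g * n⁻¹ * g⁻¹ : G3) : Matrix (Fin 2) (Fin 2) (ZMod 3)) =
        !![n 0 0, n 0 1; n 1 0, n 1 1] * !![a, b; c, d] * !![n 1 1, -n 0 1; -n 1 0, n 0 0] *
          !![d, -b; -c, a] := by
      rw [Units.val_mul, Units.val_mul, Units.val_mul, inv_val_of_det n hn, inv_val_of_det g hg,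
        ← Matrix.eta_fin_two]
      rfl
    rw [← e] at h
    exact h.imp (fun h => Units.ext h) fun h => Units.ext (by rw [h, Units.val_neg])

theorem q8_to_I (k : Fin 4) : k = 0 ∨
    (∃ m : Fin 3, UpSign (g3H ^ (m : ℕ) * q8 k * (g3H ^ (m : ℕ))⁻¹) g3I) ∧
      ∃ m : Fin 3, UpSign (g3H ^ (m : ℕ) * q8 k * (g3H ^ (m : ℕ))⁻¹) g3J := by
  revert k; decide

theorem upSign_q8_trace (k : Fin 4) : k = 0 ∨
    (q8 k : Matrix (Fin 2) (Fin 2) (ZMod 3)).trace = 0 := by
  revert k; decide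

theorem comm_IH_ne : ¬ UpSign (g3I⁻¹ * g3H⁻¹ * g3I * g3H) 1 := by decide

theorem comm_IJ {x y : G3} (hx : UpSign x g3I) (hy : UpSign y g3J) : x * y * x⁻¹ * y⁻¹ = -1 := by
  rcases hx with rfl | rfl <;> rcases hy with rfl | rfl <;> decide

theorem quat_unipotent_raw : ∀ k : Fin 4,
    ((q8 k : Matrix (Fin 2) (Fin 2) (ZMod 3)).trace = 2 → k = 0) ∧
    (-(q8 k : Matrix (Fin 2) (Fin 2) (ZMod 3))).trace ≠ 2 := by
  decide

theorem quat_cube (k : Fin 4) :
    ((q8 k) ^ 3 = 1 → k = 0) ∧ (-q8 k) ^ 3 ≠ 1 := by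
  revert k; decide

theorem q8_conj_raw : ∀ a b c d : ZMod 3, a * d - b * c = 1 →
    (∃ k, !![a, b; c, d] = (q8 k : Matrix (Fin 2) (Fin 2) (ZMod 3)) ∨
      !![a, b; c, d] = -(q8 k : Matrix (Fin 2) (Fin 2) (ZMod 3))) ∨
    ∀ k : Fin 4, k = 0 ∨
      (q8 k : Matrix (Fin 2) (Fin 2) (ZMod 3)) * (!![a, b; c, d] * (q8 k : Matrix (Fin 2) (Fin 2) (ZMod 3)) * !![d, -b; -c, a]) *
        ((q8 k)⁻¹ : G3) * (!![a, b; c, d] * ((q8 k)⁻¹ : G3) * !![d, -b; -c, a]) = -1 := by
  decide +kernel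

theorem sq_of_det_neg_raw : ∀ a b c d : ZMod 3, a * d - b * c = -1 →
    !![a, b; c, d] * !![a, b; c, d] = 1 ∨
    ∃ k : Fin 4, k ≠ 0 ∧
      (!![a, b; c, d] * !![a, b; c, d] = (q8 k : Matrix (Fin 2) (Fin 2) (ZMod 3)) ∨
        !![a, b; c, d] * !![a, b; c, d] = -(q8 k : Matrix (Fin 2) (Fin 2) (ZMod 3))) := by
  decide +kernel

theorem exists_conj_commutator (u : G3) (hu : Matrix.GeneralLinearGroup.det u = 1)
    (hnot : u ∉ Octa.quat) {k : Fin 4} (hk : k ≠ 0) :
    q8 k * (u * q8 k * u⁻¹) * (q8 k)⁻¹ * (u * q8 k * u⁻¹)⁻¹ = -1 := by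
  rcases q8_conj_raw _ _ _ _ (det_eq_entries u hu) with ⟨l, hl⟩ | h
  · rw [← Matrix.eta_fin_two] at hl
    exact absurd (mem_quat_of_upSign (k := l)
      (hl.imp (fun h => Units.ext h) fun h => Units.ext (by rw [h, Units.val_neg]))) hnot
  · have h' := (h k).resolve_left hk
    rw [← Matrix.eta_fin_two, ← inv_val_of_det u hu, ← Units.val_mul, ← Units.val_mul,
      ← Units.val_mul, ← Units.val_mul, ← Units.val_mul, ← Units.val_mul, ← Units.val_mul] at h'
    refine Units.ext ?_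
    rw [Units.val_neg, Units.val_one, show (u * q8 k * u⁻¹)⁻¹ = u * (q8 k)⁻¹ * u⁻¹ by group]
    exact h'

theorem sq_of_det_neg (x : G3) (hx : (Matrix.GeneralLinearGroup.det x : ZMod 3) = -1) :
    x ^ 2 = 1 ∨ ∃ k, k ≠ 0 ∧ UpSign (x ^ 2) (q8 k) := by
  have h0 : x 0 0 * x 1 1 - x 0 1 * x 1 0 = -1 := by rw [← Matrix.det_fin_two]; exact hx
  rcases sq_of_det_neg_raw _ _ _ _ h0 with h | ⟨k, hk, h⟩
  · rw [← Matrix.eta_fin_two] at h
    exact Or.inl (Units.ext (by rw [Units.val_pow_eq_pow_val, pow_two, h, Units.val_one]))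
  · rw [← Matrix.eta_fin_two] at h
    exact Or.inr ⟨k, hk, h.imp
      (fun h => Units.ext (by rw [Units.val_pow_eq_pow_val, pow_two, h]))
      fun h => Units.ext (by rw [Units.val_pow_eq_pow_val, pow_two, h, Units.val_neg])⟩

end FLTAgent.LT
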